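import Fermat.Agent.Carayol.Model.PtDefs

/-!
# Counting the components through a point: contracts
-/

set_option autoImplicit false
set_option linter.unusedSectionVars false

noncomputable section

namespace FA.Carayol

open CongruenceSubgroup ModularCurve FA.Level FA.JTorsion FA.Mazur.Wp
open scoped MatrixGroups

local notation "Qb" => AlgebraicClosure ℚ

/-- The automorphisms in a group preserving a set. -/
def stabSet {F : Type*} [Field F] (G : Subgroup (F ≃+* F)) (S : Set F) : Subgroup (F ≃+* F) where
  carrier := {g | g ∈ G ∧ ∀ x, g x ∈ S ↔ x ∈ S}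
  one_mem' := ⟨one_mem _, fun _ => Iff.rfl⟩
  mul_mem' := fun {a b} ha hb => ⟨mul_mem ha.1 hb.1, fun x => (ha.2 (b x)).trans (hb.2 x)⟩
  inv_mem' := fun {a} ha => ⟨inv_mem ha.1, fun x => by
    conv_rhs => rw [← a.apply_symm_apply x, ha.2]
    rfl⟩

variable [Algebra Qb ℂ] (A : ValuationSubring Qb) (q : ℕ) {N : ℕ} [NeZero N]
  (ϖ : baseO A (constL A q).toSubfield) (z : flN N (constK A q))

variable {A q z} in
/-- A point as a set of functions. -/
def ptSet (p : Pt A q z) : Set (flN N (constK A q)) :=
  (fun x : chartF A q (coordB A q z p.1) => (x : flN N (constK A q))) '' (p.2 : Set _)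

/-- The components through a point. -/
def vertsAt (p : Pt A q z) : Set (ValuationSubring (flN N (constK A q))) :=
  {W | IsVertF A q ϖ z W ∧ Thru p W}

/-- A parameter of order `e` over the inseparable coordinate `r` on a component at a point. -/
structure BrPar (p : Pt A q z) (W : ValuationSubring (flN N (constK A q))) (e : ℕ)
    (r π : chartF A q (coordB A q z p.1)) (c' : baseO A (constL A q).toSubfield)
    (V : ValuationSubring (flN N (constK A q))) : Prop where
  frob : W.valuation ((r : flN N (constK A q)) ^ q - coordB A q z p.1) < 1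
  le : V ≤ W
  mem : ∀ x ∈ chartF A q (coordB A q z p.1), x ∈ V
  centre : ∀ x : chartF A q (coordB A q z p.1), V.valuation (x : flN N (constK A q)) < 1 ↔ x ∈ p.2
  par_mem : π ∈ p.2
  par_unit : W.valuation (π : flN N (constK A q)) = 1
  rho : V.valuation ((r : flN N (constK A q)) - cF A q N c') < 1
  order : V.valuation (π : flN N (constK A q)) ^ e =
    V.valuation ((r : flN N (constK A q)) - cF A q N c')

/-- Everything is a unit times a power of the parameter on the component at the point. -/
def RegularAt (p : Pt A q z) (W : ValuationSubring (flN N (constK A q)))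
    (π : chartF A q (coordB A q z p.1)) : Prop :=
  ∀ x : chartF A q (coordB A q z p.1), W.valuation (x : flN N (constK A q)) = 1 →
    ∃ (j : ℕ) (s w : chartF A q (coordB A q z p.1)), s ∉ p.2 ∧ w ∉ p.2 ∧
      W.valuation ((x : flN N (constK A q)) * s - (π : flN N (constK A q)) ^ j * w) < 1

/-- **The counting**: some component passes through each point; a parameter of order `e` and a
stabiliser bounded by `e q` on one component give regularity and the number of components. -/
def CountHolds (ℓ : ℕ) : Prop :=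
  ∀ [Fact q.Prime], ConstHyp A (constL A q).toSubfield ϖ → Coord A q ℓ z →
    (∃ W₀, VertFacts A q ℓ ϖ z W₀) →
    ∀ p : Pt A q z, IsPtF ϖ p → (vertsAt A q ϖ z p).Nonempty ∧
      ∀ e : ℕ, 0 < e → ∀ W ∈ vertsAt A q ϖ z p, (∃ r π c' V, BrPar A q z p W e r π c' V) →
        Nat.card ↥(stabSet (galLvl A q ℓ) (ptSet p) ⊓ stabVal (galLvl A q ℓ) W) ≤ e * q →
          (∀ W' ∈ vertsAt A q ϖ z p,
            Nat.card ↥(stabSet (galLvl A q ℓ) (ptSet p) ⊓ stabVal (galLvl A q ℓ) W') = e * q) ∧
          (∀ W' ∈ vertsAt A q ϖ z p, ∃ g ∈ stabSet (galLvl A q ℓ) (ptSet p),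
            ∀ x, g x ∈ W' ↔ x ∈ W) ∧
          Nat.card (vertsAt A q ϖ z p) * (e * q) =
            Nat.card ↥(stabSet (galLvl A q ℓ) (ptSet p)) ∧
          ∀ W' ∈ vertsAt A q ϖ z p, ∀ r π c' V, BrPar A q z p W' e r π c' V →
            RegularAt A q z p W' π

/-- A point with local equations of its components is as wanted. -/
def LocalHolds (ℓ : ℕ) : Prop :=
  ConstHyp A (constL A q).toSubfield ϖ → Coord A q ℓ z → (∃ W₀, VertFacts A q ℓ ϖ z W₀) →
  ∀ p : Pt A q z, IsPtF ϖ p → (vertsAt A q ϖ z p).Nonempty →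
    (∀ W ∈ vertsAt A q ϖ z p, ∃ t π : chartF A q (coordB A q z p.1),
      W.valuation (t : flN N (constK A q)) = W.valuation (cF A q N ϖ) ∧
      (∀ W' ∈ vertsAt A q ϖ z p, W' ≠ W → W'.valuation (t : flN N (constK A q)) = 1) ∧
      (∃ (a : ℕ) (s c : chartF A q (coordB A q z p.1)), c ∉ p.2 ∧
        (t : flN N (constK A q)) * s = cF A q N ϖ ^ a * c) ∧
      π ∈ p.2 ∧ W.valuation (π : flN N (constK A q)) = 1 ∧ RegularAt A q z p W π) →
    PtLocal ϖ p

end FA.Carayol

end
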