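import Fermat.Agent.Carayol.Field.Conj
import Fermat.Agent.Carayol.Defs

/-!
# The curve with level structure over the field of level `N = 4 g`

`X_v` are the abscissae on `y² = x (x - 1) (x - λ)`, `Y_v` the ordinates divided by the one of
`Q = (0, g)`, whose square is `dF`, and `zF v = - X_v / Y_v`.
-/

set_option autoImplicit false
set_option linter.unusedSectionVars false

noncomputable section

namespace FA.Carayol

open CongruenceSubgroup FA.Level FA.JTorsion FA.Mazur.Wp
open scoped MatrixGroups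

variable {N g : ℕ} (hN : N = 4 * g) [NeZero N] {K : Subfield ℂ} (hζ : ∀ b : ℤ, eta N b ∈ K)

theorem two_g (hN : N = 4 * g) : N = 2 * (2 * g) := by omega

/-- `λ` in the field. -/
def lamF : flN N K := toFl (lam (two_g hN) K hζ)

/-- The abscissa, zero at the origin. -/
def xF (v : ℤ × ℤ) : flN N K :=
  letI := Classical.dec (IsVec N v)
  if h : IsVec N v then toFl (xv (two_g hN) hζ v h) else 0

/-- The point of order four. -/
def qV (g : ℕ) : ℤ × ℤ := (0, g)

/-- The square of the ordinate of `qV`. -/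
def dF : flN N K :=
  xF hN hζ (qV g) * (xF hN hζ (qV g) - 1) * (xF hN hζ (qV g) - lamF hN hζ)

/-- The ordinate divided by the one of `qV`. -/
def yF (v : ℤ × ℤ) : flN N K :=
  letI := Classical.dec (IsVec N (v - qV g))
  letI := Classical.dec (IsVec N (v + qV g))
  if IsVec N (v - qV g) then
    if IsVec N (v + qV g) then
      -((xF hN hζ (v + qV g) - xF hN hζ (v - qV g)) *
          (xF hN hζ v - xF hN hζ (qV g)) ^ 2) / (4 * dF hN hζ)
    else -1
  else 1

/-- The parameter at the origin, zero at the origin. -/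
def zF (v : ℤ × ℤ) : flN N K := -xF hN hζ v / yF hN hζ v

/-- **The points form a group.** -/
def CurveHolds : Prop :=
  ∀ (Ω : Type) [Field Ω] [DecidableEq Ω] (ι : flN N K →+* Ω) (s : Ω), s ^ 2 = ι (dF hN hζ) →
    ∃ P : ℤ × ℤ →+ (legendre (ι (lamF hN hζ))).toAffine.Point,
      (∀ v, P v = 0 ↔ ¬ IsVec N v) ∧
      ∀ v, IsVec N v → ∃ hns, P v = .some (ι (xF hN hζ v)) (s * ι (yF hN hζ v)) hns

/-- Vectors reducing to the origin. -/
def InKer (V : ValuationSubring (flN N K)) (v : ℤ × ℤ) : Prop :=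
  IsVec N v → 1 < V.valuation (xF hN hζ v)

/-- What is used of the reduction at a valuation. -/
structure KerFacts (V : ValuationSubring (flN N K)) : Prop where
  add_mem : ∀ v w, InKer hN hζ V v → InKer hN hζ V w → InKer hN hζ V (v + w)
  zF_add : ∀ v w, InKer hN hζ V v → InKer hN hζ V w → IsVec N v ∨ IsVec N w →
    V.valuation (zF hN hζ (v + w) - zF hN hζ v - zF hN hζ w) <
      max (V.valuation (zF hN hζ v)) (V.valuation (zF hN hζ w))
  zF_mul : ∀ v, InKer hN hζ V v → IsVec N v → ∀ k : ℤ,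
    V.valuation (zF hN hζ (k • v) - (k : flN N K) * zF hN hζ v) < V.valuation (zF hN hζ v)
  separated : V.valuation (lamF hN hζ) = 1 → V.valuation (1 - lamF hN hζ) = 1 →
    V.valuation (2 : flN N K) = 1 → ∀ v w, ¬ InKer hN hζ V v → ¬ InKer hN hζ V w →
      V.valuation (xF hN hζ v - xF hN hζ w) < 1 → InKer hN hζ V (v - w) ∨ InKer hN hζ V (v + w)

/-- The facts hold wherever `λ` is integral. -/
def KerHolds : Prop :=
  ∀ V : ValuationSubring (flN N K), lamF hN hζ ∈ V → KerFacts hN hζ V

/-- Representatives of the vectors of order `q` up to sign, `N = q * m`. -/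
def qHalf (q m : ℕ) : Finset (ℤ × ℤ) :=
  ((Finset.range ((q - 1) / 2)).image fun a : ℕ => ((0 : ℤ), ((m * (a + 1) : ℕ) : ℤ))) ∪
    ((Finset.range ((q - 1) / 2)) ×ˢ Finset.range q).image
      fun p : ℕ × ℕ => (((m * (p.1 + 1) : ℕ) : ℤ), ((m * p.2 : ℕ) : ℤ))

/-- **The division polynomial of an odd prime.** -/
def PsiHolds (q m : ℕ) : Prop :=
  q.Prime → q ≠ 2 → N = q * m → ¬ q ∣ m →
  Set.InjOn (xF hN hζ) (qHalf q m : Set (ℤ × ℤ)) ∧
    (legendre (lamF hN hζ)).preΨ' q = Polynomial.C (q : flN N K) *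
      ∏ v ∈ qHalf q m, (Polynomial.X - Polynomial.C (xF hN hζ v))

end FA.Carayol

end
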