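import Fermat.Agent.Carayol.Model.CountDefs
import Fermat.Agent.Carayol.Model.CurveDefs

/-!
# An odd prime `q`, level `q * m = 4 g`: contracts for the expansion at infinity and the cusps
-/

set_option autoImplicit false
set_option linter.unusedSectionVars false

noncomputable section

namespace FA.Carayol

open CongruenceSubgroup ModularCurve FA.Level FA.JTorsion FA.Mazur.Wp
open scoped MatrixGroups

local notation "Qb" => AlgebraicClosure ℚ

variable [Algebra Qb ℂ] (A : ValuationSubring Qb) (q : ℕ) {N g : ℕ} [NeZero N] (hN : N = 4 * g)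
  (hζ : ∀ b : ℤ, eta N b ∈ constK A q) (ϖ : baseO A (constL A q).toSubfield)

/-- A point over `0` or `1` of its coordinate. -/
def IsCuspPt {z : flN N (constK A q)} (p : Pt A q z) : Prop :=
  ∃ x ∈ p.2, (x : flN N (constK A q)) = coordB A q z p.1 * (1 - coordB A q z p.1)

/-- What is read off from the expansion at infinity and transported. -/
structure OddInfty [Fact q.Prime] : Prop where
  coord : Coord A q 2 (lamF hN hζ)
  /-- every component has a line of points of order `q` reducing to the origin -/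
  line : ∀ W, IsVertF A q ϖ (lamF hN hζ) W → ∃ v : ℤ × ℤ, IsVec N v ∧ ¬ IsVec N ((q : ℤ) • v) ∧
    InKer hN hζ W v ∧ W.valuation (zF hN hζ v) = W.valuation (cF A q N ϖ)
  /-- the inseparable coordinate on each component -/
  frob : ∀ (b : Bool) W, IsVertF A q ϖ (lamF hN hζ) W →
    ∃ r ∈ chartF A q (coordB A q (lamF hN hζ) b),
      W.valuation (r ^ q - coordB A q (lamF hN hζ) b) < 1
  /-- the cusps -/
  cusp : ∀ p : Pt A q (lamF hN hζ), IsPtF ϖ p → IsCuspPt A q p →
    PtLocal ϖ p ∧ ∀ W ∈ vertsAt A q ϖ (lamF hN hζ) p, ∀ W' ∈ vertsAt A q ϖ (lamF hN hζ) p, W = W'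

/-- The facts hold. -/
def OddInftyHolds : Prop :=
  ∀ [Fact q.Prime] (m : ℕ), q ≠ 2 → N = q * m → ¬ q ∣ m → 4 ∣ m → A.LiesOverPrime q →
    ConstHyp A (constL A q).toSubfield ϖ →
      A.valuation ((ϖ : Qb)) ^ (q - 1) = A.valuation (q : Qb) → OddInfty A q hN hζ ϖ

/-- The target for an odd prime: the points are as wanted. -/
def OddPtsHolds : Prop :=
  ∀ [Fact q.Prime] (m : ℕ), q ≠ 2 → N = q * m → ¬ q ∣ m → 4 ∣ m → A.LiesOverPrime q →
    ConstHyp A (constL A q).toSubfield ϖ →
      A.valuation ((ϖ : Qb)) ^ (q - 1) = A.valuation (q : Qb) →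
        PtsHolds ϖ (lamF hN hζ) m

end FA.Carayol

end
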