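import Fermat.Agent.Carayol.Model.VertDefs
import Fermat.Agent.Carayol.Group.Lines

/-!
# The points of the special fibre: contracts

Charts are integral over the integral constants and a coordinate `w ∈ {z, z⁻¹}`. The points on several
components carry one component for each line of `𝔽_q²`: `some t` is the line of `(1, t)` and `none`
that of `(0, 1)`.
-/

set_option autoImplicit false
set_option linter.unusedSectionVars false

noncomputable section

namespace FA.Carayol

open CongruenceSubgroup ModularCurve FA.Level FA.JTorsion FA.Mazur.Wp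
open scoped MatrixGroups

local notation "Qb" => AlgebraicClosure ℚ

variable [Algebra Qb ℂ] (A : ValuationSubring Qb) (q : ℕ) {N : ℕ} [NeZero N]

/-- The functions integral over the integral constants and `w`. -/
def chartF (w : flN N (constK A q)) : Subring (flN N (constK A q)) where
  carrier := {x | (Polynomial.eval₂RingHom (cF A q N) w).IsIntegralElem x}
  mul_mem' ha hb := RingHom.IsIntegralElem.mul _ ha hb
  one_mem' := RingHom.isIntegralElem_one _
  add_mem' ha hb := RingHom.IsIntegralElem.add _ ha hb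
  zero_mem' := RingHom.isIntegralElem_zero _
  neg_mem' ha := RingHom.IsIntegralElem.neg _ ha

/-- The two coordinates. -/
def coordB (z : flN N (constK A q)) (b : Bool) : flN N (constK A q) := bif b then z⁻¹ else z

/-- Candidates for points, in the two charts. -/
abbrev Pt (z : flN N (constK A q)) : Type := Σ b : Bool, Ideal (chartF A q (coordB A q z b))

variable {A q} (ϖ : baseO A (constL A q).toSubfield) {z : flN N (constK A q)}

/-- A point of the special fibre. -/
def IsPtF (p : Pt A q z) : Prop :=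
  p.2.IsMaximal ∧ ∃ x ∈ p.2, (x : flN N (constK A q)) = cF A q N ϖ

/-- A valuation passing through a point. -/
def Thru (p : Pt A q z) (W : ValuationSubring (flN N (constK A q))) : Prop :=
  ∀ x : chartF A q (coordB A q z p.1), W.valuation (x : flN N (constK A q)) < 1 → x ∈ p.2

/-- Regular at a point. -/
def InLoc (p : Pt A q z) (x : flN N (constK A q)) : Prop :=
  ∃ a c : chartF A q (coordB A q z p.1), c ∉ p.2 ∧ x * c = a

/-- Regular at a point on a component. -/
def InBr (p : Pt A q z) (W : ValuationSubring (flN N (constK A q))) (x : flN N (constK A q)) : Prop :=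
  x ∈ W ∧ ∃ a c : chartF A q (coordB A q z p.1), c ∉ p.2 ∧
    W.valuation (x * c - (a : flN N (constK A q))) < 1

/-- An automorphism fixing a point together with its residues. -/
def FixesPt (φ : flN N (constK A q) ≃+* flN N (constK A q)) (p : Pt A q z) : Prop :=
  ∀ x : chartF A q (coordB A q z p.1), ∃ y : chartF A q (coordB A q z p.1),
    (y : flN N (constK A q)) = φ x ∧ y - x ∈ p.2

/-- What is used at a single point. -/
structure PtLocal (p : Pt A q z) : Prop where
  residue : ∀ x : chartF A q (coordB A q z p.1), ∃ (a : baseO A (constL A q).toSubfield)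
    (y : chartF A q (coordB A q z p.1)), (y : flN N (constK A q)) = cF A q N a ∧ x - y ∈ p.2
  /-- the components through the point are regular there -/
  branch : ∀ W, IsVertF A q ϖ z W → Thru p W → ∀ x ∈ W, InBr p W x ∨
    ∃ a c : chartF A q (coordB A q z p.1), a ∈ p.2 ∧ c ∉ p.2 ∧
      W.valuation (x * a - (c : flN N (constK A q))) < 1
  /-- factoriality: divisible orders at the curves through the point give a root up to a unit -/
  root : ∀ (n : ℕ), n ≠ 0 → ∀ f : flN N (constK A q), f ≠ 0 →
    (∀ V : ValuationSubring (flN N (constK A q)),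
      (∀ x ∈ chartF A q (coordB A q z p.1), x ∈ V) →
      ((∀ c : constK A q, toFl (rC c) ∈ V) ∨ IsVertF A q ϖ z V) →
        ∃ g : flN N (constK A q), g ≠ 0 ∧ V.valuation f = V.valuation g ^ n) →
    ∃ π : flN N (constK A q), π ≠ 0 ∧ ∃ b c : chartF A q (coordB A q z p.1),
      b ∉ p.2 ∧ c ∉ p.2 ∧ f * c = π ^ n * b

variable (z)

/-- The points on several components. -/
structure LineData [Fact q.Prime] (m : ℕ) (ss : Set (Pt A q z))
    (W : Pt A q z → Option (ZMod q) → ValuationSubring (flN N (constK A q))) : Prop where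
  isPt : ∀ p ∈ ss, IsPtF ϖ p
  isVert : ∀ p ∈ ss, ∀ l, IsVertF A q ϖ z (W p l) ∧ Thru p (W p l)
  cover : ∀ p ∈ ss, ∀ V, IsVertF A q ϖ z V → Thru p V → ∃ l, V = W p l
  unique : ∀ p, IsPtF ϖ p → p ∉ ss → ∀ V V', IsVertF A q ϖ z V → IsVertF A q ϖ z V' →
    Thru p V → Thru p V' → V = V'
  comp : ∀ p ∈ ss, ∀ p' ∈ ss, ∀ l l', W p l = W p' l → W p l' = W p' l'
  line : ∀ p ∈ ss, ∀ p' ∈ ss, ∀ l l', W p l = W p' l' → l = l'
  scale : ∀ (t : ZMod q) (ht : t ≠ 0), ∃ φ : flN N (constK A q) ≃+* flN N (constK A q),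
    (∀ f, (∀ i, (((ser f).coeff i : constK A q) : ℂ) ∈ constK0 A) → φ f = f) ∧
    ∀ p ∈ ss, FixesPt φ p ∧ ∀ l x, (W p l).valuation x < 1 →
      (W p (scaleLine t ht l)).valuation (φ x) < 1
  up : ∀ t : ZMod q, ∃ k : ℤ, (m : ℤ) ∣ k ∧ (k : ZMod q) = t ∧
    ∀ p ∈ ss, FixesPt (flEquiv (upU k)) p ∧ ∀ l x, (W p l).valuation x < 1 →
      (W p (upLine t l)).valuation (flEquiv (upU k) x) < 1
  low : ∀ t : ZMod q, ∃ k : ℤ, (m : ℤ) ∣ k ∧ (k : ZMod q) = t ∧
    ∀ p ∈ ss, FixesPt (flEquiv (lowU k)) p ∧ ∀ l x, (W p l).valuation x < 1 →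
      (W p (lowLine t l)).valuation (flEquiv (lowU k) x) < 1

/-- What is used of the points. -/
def PtsHolds [Fact q.Prime] (m : ℕ) : Prop :=
  (∀ p : Pt A q z, IsPtF ϖ p → PtLocal ϖ p) ∧ ∃ ss W, LineData ϖ z m ss W

end FA.Carayol

end
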