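import Fermat.Agent.Carayol.Model.Scale

/-!
# `r = λ (τ / q)` and its conjugates, `N = 2 h`, `q ∣ h`, `q` an odd prime
-/

set_option autoImplicit false
set_option linter.unusedSectionVars false

noncomputable section

namespace FA.Carayol

open UpperHalfPlane hiding I
open CongruenceSubgroup HahnSeries ModularCurve FA.Level FA.ModField FA.Mazur.Wp
open scoped MatrixGroups

variable {N h q : ℕ} [NeZero N] (hN : N = 2 * h) [hq : Fact q.Prime]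

include hN in
theorem lamFun_congr {g g' : SL(2, ℤ)} (hgg : ∀ i j, (2 : ℤ) ∣ g' i j - g i j) (τ : ℍ) :
    lamFun N h (g' • τ) = lamFun N h (g • τ) := by
  rw [lamFun_parity hN g' (hgg 0 0) (hgg 0 1) (hgg 1 0) (hgg 1 1),
    lamFun_parity hN g (a := g 0 0) (b := g 0 1) (c := g 1 0) (d := g 1 1)
      (by simp) (by simp) (by simp) (by simp)]

theorem two_dvd_sub_mul (hq2 : q ≠ 2) (x : ℤ) : (2 : ℤ) ∣ (q : ℤ) * x - x := by
  obtain ⟨t, ht⟩ := hq.out.odd_of_ne_two hq2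
  exact ⟨t * x, by rw [ht]; push_cast; ring⟩

/-- Triangular form of `diag (1, q) g`. -/
theorem exists_tri (hq2 : q ≠ 2) (g : SL(2, ℤ)) :
    ∃ (g' : SL(2, ℤ)) (a d : ℕ) (b : ℤ), (∀ i j, (2 : ℤ) ∣ g' i j - g i j) ∧
      ((a = 1 ∧ d = q) ∨ (a = q ∧ d = 1 ∧ b = 0)) ∧ (g = 1 → a = 1 ∧ b = 0) ∧
      g 0 0 = g' 0 0 * (a : ℤ) ∧ g 0 1 = g' 0 0 * b + g' 0 1 * (d : ℤ) ∧
      (q : ℤ) * g 1 0 = g' 1 0 * (a : ℤ) ∧
      (q : ℤ) * g 1 1 = g' 1 0 * b + g' 1 1 * (d : ℤ) := by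
  have hdet := Matrix.SpecialLinearGroup.det_coe g
  rw [Matrix.det_fin_two] at hdet
  have hodd := two_dvd_sub_mul (q := q) hq2
  by_cases hdiv : (q : ℤ) ∣ g 0 0
  · obtain ⟨c, hc⟩ := hdiv
    refine ⟨⟨!![c, g 0 1; g 1 0, (q : ℤ) * g 1 1], by
      rw [Matrix.det_fin_two_of]; rw [hc] at hdet; linear_combination hdet⟩, q, 1, 0, ?_,
      Or.inr ⟨rfl, rfl, rfl⟩, fun h1 => ?_, ?_, ?_, ?_, ?_⟩
    · intro i j
      fin_cases i <;> fin_cases j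
      · show (2 : ℤ) ∣ c - g 0 0
        rw [hc]; exact dvd_sub_comm.1 (hodd c)
      · simp
      · simp
      · show (2 : ℤ) ∣ (q : ℤ) * g 1 1 - g 1 1
        exact hodd _
    · exfalso
      subst h1
      have : (q : ℤ) ∣ 1 := ⟨c, by simpa using hc⟩
      exact hq.out.one_lt.ne' (by exact_mod_cast Int.eq_one_of_dvd_one (by positivity) this)
    · show g 0 0 = c * (q : ℤ); rw [hc]; ring
    · show g 0 1 = c * 0 + g 0 1 * ((1 : ℕ) : ℤ); push_cast; ring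
    · show (q : ℤ) * g 1 0 = g 1 0 * (q : ℤ); ring
    · show (q : ℤ) * g 1 1 = g 1 0 * 0 + (q : ℤ) * g 1 1 * ((1 : ℕ) : ℤ); push_cast; ring
  · obtain ⟨u, v, huv⟩ : IsCoprime (g 0 0) (q : ℤ) := by
      exact ((Nat.prime_iff_prime_int.1 hq.out).coprime_iff_not_dvd.2 hdiv).symm
    by_cases h1 : g = 1
    · subst h1
      refine ⟨1, 1, q, 0, by simp, Or.inl ⟨rfl, rfl⟩, fun _ => ⟨rfl, rfl⟩, ?_, ?_, ?_, ?_⟩ <;>
        simp
    obtain ⟨t, ht⟩ := hq.out.odd_of_ne_two hq2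
    have ht' : (q : ℤ) = 2 * (t : ℤ) + 1 := by rw [ht]; push_cast; ring
    set b := u * g 0 1 * ((q : ℤ) + 1)
    have hb : (2 : ℤ) ∣ b := ⟨u * g 0 1 * ((t : ℤ) + 1), by simp only [b]; rw [ht']; ring⟩
    obtain ⟨w, hw⟩ : (q : ℤ) ∣ g 0 1 - g 0 0 * b :=
      ⟨v * g 0 1 - g 0 0 * u * g 0 1, by simp only [b]; linear_combination (-g 0 1) * huv⟩
    refine ⟨⟨!![g 0 0, w; (q : ℤ) * g 1 0, g 1 1 - g 1 0 * b], by
      rw [Matrix.det_fin_two_of]; linear_combination hdet + g 1 0 * hw⟩, 1, q, b, ?_,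
      Or.inl ⟨rfl, rfl⟩, fun h => absurd h h1, ?_, ?_, ?_, ?_⟩
    · intro i j
      fin_cases i <;> fin_cases j
      · simp
      · show (2 : ℤ) ∣ w - g 0 1
        obtain ⟨b', hb'⟩ := hb
        exact ⟨-(t : ℤ) * w - g 0 0 * b', by rw [hb', ht'] at hw; linear_combination -hw⟩
      · show (2 : ℤ) ∣ (q : ℤ) * g 1 0 - g 1 0
        exact hodd _
      · show (2 : ℤ) ∣ g 1 1 - g 1 0 * b - g 1 1
        rw [sub_sub_cancel_left, dvd_neg]; exact hb.mul_left _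
    · show g 0 0 = g 0 0 * ((1 : ℕ) : ℤ); push_cast; ring
    · show g 0 1 = g 0 0 * b + w * (q : ℤ); linear_combination hw
    · show (q : ℤ) * g 1 0 = (q : ℤ) * g 1 0 * ((1 : ℕ) : ℤ); push_cast; ring
    · show (q : ℤ) * g 1 1 = (q : ℤ) * g 1 0 * b + (g 1 1 - g 1 0 * b) * (q : ℤ); ring

/-- The point `τ / q`. -/
def divPt (q : ℕ) [Fact q.Prime] (τ : ℍ) : ℍ :=
  haveI : NeZero q := ⟨(Fact.out : q.Prime).ne_zero⟩
  affPt 1 0 q τ

theorem coe_divPt (τ : ℍ) : ((divPt q τ : ℍ) : ℂ) = (τ : ℂ) / q := by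
  simp [divPt, coe_affPt]

/-- `g τ / q` in triangular form. -/
theorem divPt_smul {g g' : SL(2, ℤ)} {a d : ℕ} [NeZero a] [NeZero d] {b : ℤ}
    (h0 : g 0 0 = g' 0 0 * (a : ℤ)) (h1 : g 0 1 = g' 0 0 * b + g' 0 1 * (d : ℤ))
    (h2 : (q : ℤ) * g 1 0 = g' 1 0 * (a : ℤ))
    (h3 : (q : ℤ) * g 1 1 = g' 1 0 * b + g' 1 1 * (d : ℤ)) (τ : ℍ) :
    divPt q (g • τ) = g' • affPt a b d τ := by
  apply UpperHalfPlane.ext
  simp only [coe_divPt, UpperHalfPlane.coe_specialLinearGroup_apply, algebraMap_int_eq, eq_intCast,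
    coe_affPt, Complex.ofReal_intCast]
  have hd : (d : ℂ) ≠ 0 := by exact_mod_cast NeZero.ne d
  have e0 : ((g 0 0 : ℤ) : ℂ) = (g' 0 0 : ℤ) * (a : ℂ) := by rw [h0]; push_cast; ring
  have e1 : ((g 0 1 : ℤ) : ℂ) = (g' 0 0 : ℤ) * (b : ℂ) + (g' 0 1 : ℤ) * (d : ℂ) := by
    rw [h1]; push_cast; ring
  have e2 : (q : ℂ) * ((g 1 0 : ℤ) : ℂ) = (g' 1 0 : ℤ) * (a : ℂ) := by exact_mod_cast h2
  have e3 : (q : ℂ) * ((g 1 1 : ℤ) : ℂ) = (g' 1 0 : ℤ) * (b : ℂ) + (g' 1 1 : ℤ) * (d : ℂ) := by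
    exact_mod_cast h3
  rw [div_div, mul_comm _ (q : ℂ), mul_add, ← mul_assoc, e2, e3, e0, e1]
  field_simp
  ring

variable (K : Subfield ℂ) (hζ : ∀ b : ℤ, eta N b ∈ K)

include hN hζ in
theorem exists_exp_rlam (hq2 : q ≠ 2) (hqh : q ∣ h) (g : SL(2, ℤ)) :
    ∃ (e : ℕ) (he : 0 < e) (c : ℤ), (g = 1 → e * q = h ∧ c = 0) ∧
      HasKExp N K (fun τ => lamFun N h (divPt q (g • τ)))
        (scaleSer he (half_pos hN) (⟨eta N c, hζ c⟩ : K) (rSer (rAct g (lam hN K hζ)))) := by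
  obtain ⟨g', a, d, b, hpar, hcase, hone, h0, h1, h2, h3⟩ := exists_tri hq2 g
  obtain ⟨t, ht⟩ := hqh
  have ht0 : 0 < t := Nat.pos_of_ne_zero fun h0 => (half_pos hN).ne' (by rw [ht, h0, mul_zero])
  haveI : NeZero a := ⟨by rcases hcase with ⟨rfl, -⟩ | ⟨rfl, -, -⟩ <;> simp [hq.out.ne_zero]⟩
  haveI : NeZero d := ⟨by rcases hcase with ⟨-, rfl⟩ | ⟨-, rfl, -⟩ <;> simp [hq.out.ne_zero]⟩
  obtain ⟨e, he, hed, hz⟩ : ∃ e : ℕ, 0 < e ∧ e * d = a * h ∧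
      ∀ b : ℤ, ∃ c : ℤ, (b = 0 → c = 0) ∧
        eta N c = Complex.exp (Real.pi * Complex.I * b / d) := by
    have hq0 : (q : ℂ) ≠ 0 := by exact_mod_cast hq.out.ne_zero
    have ht0' : (t : ℂ) ≠ 0 := by exact_mod_cast ht0.ne'
    rcases hcase with ⟨rfl, rfl⟩ | ⟨rfl, rfl, -⟩
    · refine ⟨t, ht0, by rw [ht]; ring, fun b => ⟨b * t, fun hb => by simp [hb], ?_⟩⟩
      rw [eta, tpi, hN, ht]
      congr 1
      push_cast
      field_simp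
    · refine ⟨a * h, Nat.mul_pos hq.out.pos (half_pos hN), by ring, fun b => ⟨b * h, fun hb => by simp [hb], ?_⟩⟩
      rw [eta, tpi, hN, ht]
      congr 1
      push_cast
      field_simp
  obtain ⟨c, hc0, hc⟩ := hz b
  refine ⟨e, he, c, fun hg => ?_, ?_⟩
  · obtain ⟨ha, hb⟩ := hone hg
    refine ⟨?_, hc0 hb⟩
    rcases hcase with ⟨-, hd⟩ | ⟨ha', -, -⟩
    · rw [hd, ha, one_mul] at hed; exact hed
    · exact absurd (ha'.symm.trans ha) hq.out.one_lt.ne'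
  unfold HasKExp
  rw [map_scaleSer]
  have hS := rSer_spec (rAct g (lam hN K hζ))
  unfold HasKExp at hS
  have := hasExp_affPt hN hS (fun i hi => dvd_of_coeff_ne hN K hζ
    (fun γ hγ => rAct_lam_gamma_two hN K hζ hγ) g (i := i) (fun h0 => hi (by
      rw [coeffMap_coeff, h0, map_zero]))) a b d he hed (half_pos hN)
  rw [show K.subtype ⟨eta N c, hζ c⟩ = eta N c from rfl, hc]
  refine this.congr (funext fun τ => ?_)
  show ((rAct g (lam hN K hζ) : holSub) : ℍ → ℂ) (affPt a b d τ) = _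
  rw [divPt_smul h0 h1 h2 h3, lamFun_congr hN hpar]
  rfl

/-- `λ (τ / q)`. -/
def rlam (hq2 : q ≠ 2) (hqh : q ∣ h) : rN N K :=
  ⟨⟨fun τ => lamFun N h (divPt q τ), by
    obtain ⟨e, he, c, -, hs⟩ := exists_exp_rlam hN K hζ hq2 hqh 1
    exact mdiff_of_exp (hs.congr (funext fun τ => by rw [one_smul]))⟩, mem_rN.2
    ⟨fun γ hγ τ => by
      show lamFun N h (divPt q (γ • τ)) = lamFun N h (divPt q τ)
      obtain ⟨t, ht⟩ := hqh
      rw [Gamma_mem] at hγ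
      obtain ⟨k1, hk1⟩ := (ZMod.intCast_zmod_eq_zero_iff_dvd _ _).mp hγ.2.1
      obtain ⟨k2, hk2⟩ := (ZMod.intCast_zmod_eq_zero_iff_dvd _ _).mp hγ.2.2.1
      obtain ⟨k0, hk0⟩ : (N : ℤ) ∣ γ 0 0 - 1 := by
        rw [← ZMod.intCast_zmod_eq_zero_iff_dvd]; simp [hγ.1]
      obtain ⟨k3, hk3⟩ : (N : ℤ) ∣ γ 1 1 - 1 := by
        rw [← ZMod.intCast_zmod_eq_zero_iff_dvd]; simp [hγ.2.2.2]
      have hN' : (N : ℤ) = 2 * ((q : ℤ) * (t : ℤ)) := by rw [hN, ht]; push_cast; ring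
      have hb : γ 0 1 = (q : ℤ) * (2 * (t : ℤ) * k1) := by rw [hk1, hN']; ring
      have hdet := Matrix.SpecialLinearGroup.det_coe γ
      rw [Matrix.det_fin_two, hb] at hdet
      set γ' : SL(2, ℤ) := ⟨!![γ 0 0, 2 * (t : ℤ) * k1; (q : ℤ) * γ 1 0, γ 1 1], by
        rw [Matrix.det_fin_two_of]; linear_combination hdet⟩
      haveI : NeZero q := ⟨hq.out.ne_zero⟩
      rw [divPt_smul (g := γ) (g' := γ') (a := 1) (d := q) (b := 0) (by simp [γ'])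
        (by simp [γ', hb]; ring) (by simp [γ']) (by simp [γ']; ring) τ]
      refine lamFun_gamma_two hN ?_ _
      rw [Gamma_mem]
      refine ⟨?_, ?_, ?_, ?_⟩
      · rw [show (γ' 0 0 : ℤ) = γ 0 0 from rfl]
        exact (ZMod.intCast_eq_intCast_iff_dvd_sub _ _ 2).2 (dvd_sub_comm.1
          ⟨(q : ℤ) * t * k0, by rw [hk0, hN']; push_cast; ring⟩) |>.trans (Int.cast_one)
      · rw [ZMod.intCast_zmod_eq_zero_iff_dvd]
        exact ⟨(t : ℤ) * k1, by show 2 * (t : ℤ) * k1 = _; push_cast; ring⟩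
      · rw [ZMod.intCast_zmod_eq_zero_iff_dvd]
        exact ⟨(q : ℤ) * q * t * k2, by show (q : ℤ) * γ 1 0 = _; rw [hk2, hN']; push_cast; ring⟩
      · rw [show (γ' 1 1 : ℤ) = γ 1 1 from rfl]
        exact (ZMod.intCast_eq_intCast_iff_dvd_sub _ _ 2).2 (dvd_sub_comm.1
          ⟨(q : ℤ) * t * k3, by rw [hk3, hN']; push_cast; ring⟩) |>.trans (Int.cast_one),
    fun g => by
      obtain ⟨e, he, c, -, hs⟩ := exists_exp_rlam hN K hζ hq2 hqh g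
      exact ⟨_, hs⟩⟩⟩

/-- **The series of the conjugates of `λ (τ / q)`.** -/
theorem rSer_rAct_rlam (hq2 : q ≠ 2) (hqh : q ∣ h) (g : SL(2, ℤ)) :
    ∃ (e : ℕ) (he : 0 < e) (c : ℤ), (g = 1 → e * q = h ∧ c = 0) ∧
      rSer (rAct g (rlam hN K hζ hq2 hqh)) =
        scaleSer he (half_pos hN) (⟨eta N c, hζ c⟩ : K) (rSer (rAct g (lam hN K hζ))) := by
  obtain ⟨e, he, c, h1, hs⟩ := exists_exp_rlam hN K hζ hq2 hqh g
  exact ⟨e, he, c, h1, rSer_eq hs⟩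

end FA.Carayol

end
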