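import Fermat.Agent.Carayol.Field.Invariant

/-!
# `τ ↦ f ((a τ + b) / d)` on expansions supported on the multiples of `h`, `N = 2 h`
-/

set_option autoImplicit false
set_option linter.unusedSectionVars false

noncomputable section

namespace FA.Carayol

open UpperHalfPlane hiding I
open CongruenceSubgroup HahnSeries ModularCurve FA.Level FA.ModField FA.Mazur.Wp
open scoped MatrixGroups

/-- The point `(a τ + b) / d`. -/
def affPt (a : ℕ) (b : ℤ) (d : ℕ) [NeZero a] [NeZero d] (τ : ℍ) : ℍ :=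
  ⟨((a : ℂ) * τ + b) / d, by
    have h1 : (0 : ℝ) < a := by exact_mod_cast Nat.pos_of_ne_zero (NeZero.ne a)
    have h2 : (0 : ℝ) < d := by exact_mod_cast Nat.pos_of_ne_zero (NeZero.ne d)
    rw [Complex.div_natCast_im]
    refine div_pos ?_ h2
    simp only [Complex.add_im, Complex.mul_im, Complex.natCast_re, Complex.natCast_im,
      Complex.intCast_im, zero_mul, add_zero]
    exact mul_pos h1 τ.im_pos⟩

theorem coe_affPt (a : ℕ) (b : ℤ) (d : ℕ) [NeZero a] [NeZero d] (τ : ℍ) :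
    ((affPt a b d τ : ℍ) : ℂ) = ((a : ℂ) * τ + b) / d := rfl

variable {R : Type*} [Field R]

/-- Coefficient at `h * j` moved to `e * j` and multiplied by `z ^ j`. -/
def scaleCoeff (h e : ℕ) (z : R) (S : LaurentSeries R) (i : ℤ) : R :=
  if (e : ℤ) ∣ i then S.coeff (h * (i / e)) * z ^ (i / e) else 0

theorem scaleCoeff_zero_of_lt {h e : ℕ} (he : 0 < e) (hh : 0 < h) (z : R) (S : LaurentSeries R)
    {i : ℤ} (hi : i < (e : ℤ) * min S.order 0) : scaleCoeff h e z S i = 0 := by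
  unfold scaleCoeff
  split_ifs with hd
  · obtain ⟨j, rfl⟩ := hd
    rw [Int.mul_ediv_cancel_left _ (by exact_mod_cast he.ne' : (e : ℤ) ≠ 0)]
    have hj : j < min S.order 0 := lt_of_mul_lt_mul_left hi (by positivity)
    rw [coeff_eq_zero_of_lt_order, zero_mul]
    have h0 : j < 0 := hj.trans_le (min_le_right _ _)
    have h1 : j < S.order := hj.trans_le (min_le_left _ _)
    have : (h : ℤ) * j ≤ 1 * j := mul_le_mul_of_nonpos_right (by exact_mod_cast hh) h0.le
    omega
  · rfl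

theorem bddBelow_scale {h e : ℕ} (he : 0 < e) (hh : 0 < h) (z : R) (S : LaurentSeries R) :
    BddBelow (Function.support (scaleCoeff h e z S)) :=
  ⟨(e : ℤ) * min S.order 0, fun _ hi => not_lt.1 fun hlt => hi (scaleCoeff_zero_of_lt he hh z S hlt)⟩

/-- The scaled series. -/
def scaleSer {h e : ℕ} (he : 0 < e) (hh : 0 < h) (z : R) (S : LaurentSeries R) : LaurentSeries R :=
  HahnSeries.ofSuppBddBelow (scaleCoeff h e z S) (bddBelow_scale he hh z S)

theorem scaleSer_coeff {h e : ℕ} (he : 0 < e) (hh : 0 < h) (z : R) (S : LaurentSeries R) (j : ℤ) :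
    (scaleSer he hh z S).coeff (e * j) = S.coeff (h * j) * z ^ j := by
  show scaleCoeff h e z S (e * j) = _
  rw [scaleCoeff, if_pos (dvd_mul_right _ _),
    Int.mul_ediv_cancel_left _ (by exact_mod_cast he.ne' : (e : ℤ) ≠ 0)]

theorem scaleSer_coeff_of_not_dvd {h e : ℕ} (he : 0 < e) (hh : 0 < h) (z : R) (S : LaurentSeries R)
    {i : ℤ} (hi : ¬ (e : ℤ) ∣ i) : (scaleSer he hh z S).coeff i = 0 := if_neg hi

theorem ordGE_scaleSer {h e : ℕ} (he : 0 < e) (hh : 0 < h) (z : R) {S : LaurentSeries R}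
    (hS : OrdGE 0 S) : OrdGE 0 (scaleSer he hh z S) := by
  intro i hi
  by_cases hd : (e : ℤ) ∣ i
  · obtain ⟨j, rfl⟩ := hd
    rw [scaleSer_coeff, hS _ (mul_neg_of_pos_of_neg (by exact_mod_cast hh)
      (by nlinarith [show (0 : ℤ) < e by exact_mod_cast he])), zero_mul]
  · exact scaleSer_coeff_of_not_dvd he hh z S hd

theorem map_scaleSer {R' : Type*} [Field R'] (φ : R →+* R') {h e : ℕ} (he : 0 < e) (hh : 0 < h)
    (z : R) (S : LaurentSeries R) :
    coeffMap φ (scaleSer he hh z S) = scaleSer he hh (φ z) (coeffMap φ S) := by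
  ext i
  by_cases hd : (e : ℤ) ∣ i
  · obtain ⟨j, rfl⟩ := hd
    rw [coeffMap_coeff, scaleSer_coeff, scaleSer_coeff, coeffMap_coeff, map_mul, map_zpow₀]
  · rw [coeffMap_coeff, scaleSer_coeff_of_not_dvd he hh z S hd,
      scaleSer_coeff_of_not_dvd he hh _ _ hd, map_zero]

variable {N h : ℕ} [NeZero N]

/-- **The expansion of `f ((a τ + b) / d)`.** -/
theorem hasExp_affPt (hN : N = 2 * h) {f : ℍ → ℂ} {S : LaurentSeries ℂ} (hf : HasExp (qp N) f S)
    (hS : ∀ i, S.coeff i ≠ 0 → (h : ℤ) ∣ i) (a : ℕ) (b : ℤ) (d : ℕ) [NeZero a] [NeZero d]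
    {e : ℕ} (he : 0 < e) (hed : e * d = a * h) (hh : 0 < h) :
    HasExp (qp N) (fun τ => f (affPt a b d τ))
      (scaleSer he hh (Complex.exp (Real.pi * Complex.I * b / d)) S) := by
  intro τ
  set z := Complex.exp (Real.pi * Complex.I * b / d)
  have hinj : Function.Injective fun j : ℤ => (e : ℤ) * j := fun x y hxy =>
    mul_left_cancel₀ (by exact_mod_cast he.ne' : (e : ℤ) ≠ 0) hxy
  have hinj' : Function.Injective fun j : ℤ => (h : ℤ) * j := fun x y hxy =>
    mul_left_cancel₀ (by exact_mod_cast hh.ne' : (h : ℤ) ≠ 0) hxy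
  refine (hinj.hasSum_iff (fun i hi => by
    rw [scaleSer_coeff_of_not_dvd he hh z S fun ⟨j, hj⟩ => hi ⟨j, hj.symm⟩, zero_mul])).1 ?_
  have h1 := (hinj'.hasSum_iff (fun i hi => by
    by_cases h0 : S.coeff i = 0
    · rw [h0, zero_mul]
    · obtain ⟨j, hj⟩ := hS i h0
      exact absurd ⟨j, hj.symm⟩ hi)).2 (hf (affPt a b d τ))
  refine h1.congr_fun fun j => ?_
  simp only [Function.comp_apply]
  rw [scaleSer_coeff, mul_assoc]
  congr 1
  have hd0 : (d : ℂ) ≠ 0 := by exact_mod_cast NeZero.ne d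
  have hh0 : (h : ℂ) ≠ 0 := by exact_mod_cast hh.ne'
  have hed' : (e : ℂ) * d = a * h := by exact_mod_cast hed
  rw [qp_eq, qp_eq, ← Complex.exp_int_mul, ← Complex.exp_int_mul, ← Complex.exp_int_mul,
    ← Complex.exp_add, coe_affPt]
  congr 1
  rw [hN]
  push_cast
  field_simp
  linear_combination (j : ℂ) * (τ : ℂ) * hed'

end FA.Carayol

end
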