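import Fermat.Agent.Carayol.Setup

/-!
# The components of the special fibre: contracts

`ℓ` is the auxiliary level (2, or 3 at the prime two) and `z` its coordinate.
-/

set_option autoImplicit false
set_option linter.unusedSectionVars false

noncomputable section

namespace FA.Carayol

open CongruenceSubgroup ModularCurve FA.Level FA.JTorsion FA.Mazur.Wp
open scoped MatrixGroups

local notation "Qb" => AlgebraicClosure ℚ

variable [Algebra Qb ℂ] (A : ValuationSubring Qb) (q : ℕ) (N : ℕ) [NeZero N]

/-- The inclusion of the integral constants in the constants. -/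
def baseToL : baseO A (constL A q).toSubfield →+* (constL A q).toSubfield where
  toFun a := ⟨a, a.2.2⟩
  map_zero' := rfl
  map_one' := rfl
  map_add' _ _ := rfl
  map_mul' _ _ := rfl

/-- The constants in `ℂ`. -/
def toK : (constL A q).toSubfield →+* constK A q :=
  ((algebraMap Qb ℂ).comp (constL A q).toSubfield.subtype).codRestrict (constK A q)
    fun x => ⟨x, x.2, rfl⟩

/-- The integral constants in `ℂ`. -/
def baseK : baseO A (constL A q).toSubfield →+* constK A q := (toK A q).comp (baseToL A q)

/-- The integral constants as functions. -/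
def cF : baseO A (constL A q).toSubfield →+* flN N (constK A q) :=
  toFl.comp (rC.comp (baseK A q))

/-- The residue of an integral constant. -/
def resO : baseO A (constL A q).toSubfield →+* IsLocalRing.ResidueField A where
  toFun a := IsLocalRing.residue A ⟨a, a.2.1⟩
  map_zero' := map_zero _
  map_one' := map_one _
  map_add' a b := map_add (IsLocalRing.residue A) ⟨a, a.2.1⟩ ⟨b, b.2.1⟩
  map_mul' a b := map_mul (IsLocalRing.residue A) ⟨a, a.2.1⟩ ⟨b, b.2.1⟩

/-- Integral series as series. -/
def serO : LaurentSeries (baseO A (constL A q).toSubfield) →+* LaurentSeries (constK A q) :=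
  coeffMap (baseK A q)

/-- The reduction of an integral series. -/
def redO : LaurentSeries (baseO A (constL A q).toSubfield) →+*
    LaurentSeries (IsLocalRing.ResidueField A) :=
  coeffMap (resO A q)

variable {N}

/-- The image of `Γ(ℓ)`. -/
def galLvl (ℓ : ℕ) : Subgroup (flN N (constK A q) ≃+* flN N (constK A q)) :=
  (Gamma ℓ).map (flHom N (constK A q))

variable {A q}

/-- The automorphisms in a group preserving a valuation ring. -/
def stabVal {F : Type*} [Field F] (G : Subgroup (F ≃+* F)) (W : ValuationSubring F) :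
    Subgroup (F ≃+* F) where
  carrier := {g | g ∈ G ∧ ∀ x, g x ∈ W ↔ x ∈ W}
  one_mem' := ⟨one_mem _, fun _ => Iff.rfl⟩
  mul_mem' := fun {a b} ha hb => ⟨mul_mem ha.1 hb.1, fun x => (ha.2 (b x)).trans (hb.2 x)⟩
  inv_mem' := fun {a} ha => ⟨inv_mem ha.1, fun x => by
    conv_rhs => rw [← a.apply_symm_apply x, ha.2]
    rfl⟩

variable (A q)

/-- A coordinate of level `ℓ`. -/
structure Coord (ℓ : ℕ) (z : flN N (constK A q)) : Prop where
  dvd : ℓ ∣ N
  roots : ∀ b : ℤ, eta N b ∈ constK A q
  fix : ∀ γ ∈ Gamma ℓ, flAct γ z = z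
  closed : ∀ x : flN N (constK A q), (∀ γ ∈ Gamma ℓ, flAct γ x = x) →
    x ∈ Subfield.closure (Set.range ((toFl (N := N)).comp rC) ∪ {z})
  bdd : ∀ x : flN N (constK A q), ∃ a b, b ≠ 0 ∧ ser x * serO A q b = serO A q a
  transc : ∃ a b, redO A q b ≠ 0 ∧ ser z * serO A q b = serO A q a ∧
    ∀ P : Polynomial (IsLocalRing.ResidueField A), P ≠ 0 →
      P.eval₂ HahnSeries.C (redO A q a / redO A q b) ≠ 0

/-- A valuation ring over the generic point of the special fibre in the coordinate `z`. -/
def IsVertF (ϖ : baseO A (constL A q).toSubfield) (z : flN N (constK A q))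
    (W : ValuationSubring (flN N (constK A q))) : Prop :=
  W.valuation (cF A q N ϖ) < 1 ∧
    ∀ P : Polynomial (baseO A (constL A q).toSubfield), (∃ i, IsUnit (P.coeff i)) →
      W.valuation (P.eval₂ (cF A q N) z) = 1

/-- The Gauss valuation of the expansion at infinity. -/
structure IsInfty (ϖ : baseO A (constL A q).toSubfield)
    (W : ValuationSubring (flN N (constK A q))) : Prop where
  mem_iff : ∀ x, x ∈ W ↔ ∃ a b, redO A q b ≠ 0 ∧ ser x * serO A q b = serO A q a
  lt_iff : ∀ x a b, redO A q b ≠ 0 → ser x * serO A q b = serO A q a →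
    (W.valuation x < 1 ↔ redO A q a = 0)
  scale : ∀ x, x ≠ 0 → ∃ j : ℤ, W.valuation (x / cF A q N ϖ ^ j) = 1

/-- What is used of the components. -/
structure VertFacts (ℓ : ℕ) (ϖ : baseO A (constL A q).toSubfield) (z : flN N (constK A q))
    (W₀ : ValuationSubring (flN N (constK A q))) : Prop where
  infty : IsInfty A q ϖ W₀
  isVert : IsVertF A q ϖ z W₀
  /-- all components are translates of the one at infinity -/
  orbit : ∀ W, IsVertF A q ϖ z W → ∃ γ ∈ Gamma ℓ, ∀ x, x ∈ W ↔ flAct γ x ∈ W₀
  /-- the degree over the line is at most the order of the stabiliser -/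
  degree : ∀ W, IsVertF A q ϖ z W →
    ∀ x : Fin (Nat.card (stabVal (galLvl A q ℓ) W) + 1) → flN N (constK A q),
      (∀ i, x i ∈ W) → ∃ P : Fin (Nat.card (stabVal (galLvl A q ℓ) W) + 1) →
          Polynomial (baseO A (constL A q).toSubfield),
        (∃ i j, IsUnit ((P i).coeff j)) ∧
          W.valuation (∑ i, (P i).eval₂ (cF A q N) z * x i) < 1

/-- The facts hold. -/
def VertHolds : Prop :=
  ∀ (ϖ : baseO A (constL A q).toSubfield), ConstHyp A (constL A q).toSubfield ϖ →
    ∀ (ℓ : ℕ) (z : flN N (constK A q)), Coord A q ℓ z → ∃ W₀, VertFacts A q ℓ ϖ z W₀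

end FA.Carayol

end
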